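/-
Programme MS (S12), area STEP (helper8): **the abstract algebra of the inductive step of Route B.**

`G` a group acting on an abelian group `X` (`X = E(ℚ̄)`, `G = G_ℚ`), `p` a prime, `c : G → ℕ`
(the mod-`p` cyclotomic exponent).  `CofData G X p k c` = a cyclic `G`-stable subgroup `K = ⟨gen⟩`
of order `p^k` of `X` such that `G` acts trivially on `X[p^k] / K` and through `c` on `K[p]`.

For `D : CofData G X p k c` (`1 ≤ k`):
* `D.A` = `p⁻¹ K`, `D.V` = `p⁻¹ K / K` as a TYPE with `AddCommGroup`, `DistribMulAction G`,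
  `Module (ZMod p)`, `SMulCommClass` — the shape of `ExtCitation.IsAdmissibleExtension`;
* `D.C` = the image of `X[p]` in `D.V`; `C_stable`, `C_fixed`, `cyclo_quot`, `card_V`, `card_C`;
* for a complement `C'` of `D.C`: `D.next C'` = the preimage of `C'` in `p⁻¹ K`; it contains `K`, is
  `G`-stable if `C'` is, has `p^(k+1)` elements and is cyclic (`exists_gen_next`), with the same
  `p`-torsion as `K`; `D.nextData` packages it as a `CofData G X p (k+1) c` given the new
  cofixedness.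
-/
import Mathlib

set_option autoImplicit false
set_option linter.unusedSectionVars false
set_option linter.style.longLine false

namespace Fermat.Agent.MS.STEP.StepAlg8

/-- the `n`-torsion subgroup. -/
def tors (X : Type*) [AddCommGroup X] (n : ℕ) : AddSubgroup X := (nsmulAddMonoidHom (α := X) n).ker

theorem mem_tors {X : Type*} [AddCommGroup X] {n : ℕ} {x : X} : x ∈ tors X n ↔ n • x = 0 :=
  Iff.rfl

/-- the action commutes with natural multiples. -/
theorem gsmul_nsmul {G X : Type*} [Monoid G] [AddCommGroup X] [DistribMulAction G X] (g : G) (n : ℕ)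
    (x : X) : g • (n • x) = n • (g • x) :=
  map_nsmul (DistribSMul.toAddMonoidHom X g) n x


/-- the action commutes with integer multiples. -/
theorem gsmul_zsmul {G X : Type*} [Monoid G] [AddCommGroup X] [DistribMulAction G X] (g : G) (n : ℤ)
    (x : X) : g • (n • x) = n • (g • x) :=
  map_zsmul (DistribSMul.toAddMonoidHom X g) n x

/-- `#H = #f(H) * #(ker f ∩ H)`. -/
theorem card_eq_map_mul_ker {X Y : Type*} [AddCommGroup X] [AddCommGroup Y] (f : X →+ Y)
    (H : AddSubgroup X) :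
    Nat.card ↥H = Nat.card ↥(H.map f) * Nat.card ↥(f.ker.addSubgroupOf H) := by
  rw [AddSubgroup.card_eq_card_quotient_mul_card_addSubgroup (f.domRestrict H).ker,
    Nat.card_congr (QuotientAddGroup.quotientKerEquivRange (f.domRestrict H)).toEquiv,
    AddMonoidHom.domRestrict_range, AddMonoidHom.ker_domRestrict]

/-- `#(B ∩ A)` computed inside `A`. -/
theorem card_addSubgroupOf {X : Type*} [AddCommGroup X] (A B : AddSubgroup X) :
    Nat.card ↥(B.addSubgroupOf A) = Nat.card {x : X // x ∈ A ∧ x ∈ B} :=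
  Nat.card_congr
    { toFun := fun x => ⟨((x : ↥A) : X), (x : ↥A).2, AddSubgroup.mem_addSubgroupOf.1 x.2⟩
      invFun := fun x => ⟨⟨x.1, x.2.1⟩, AddSubgroup.mem_addSubgroupOf.2 x.2.2⟩
      left_inv := fun _ => rfl
      right_inv := fun _ => rfl }

/-- the data of `Cof(k)`. -/
structure CofData (G X : Type) [Group G] [AddCommGroup X] [DistribMulAction G X] (p k : ℕ)
    (c : G → ℕ) where
  /-- the cyclic subgroup `K_k` -/
  K : AddSubgroup X
  stable : ∀ g : G, ∀ x ∈ K, g • x ∈ K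
  /-- a generator -/
  gen : X
  K_eq : K = AddSubgroup.zmultiples gen
  order : addOrderOf gen = p ^ k
  cofix : ∀ g : G, ∀ x : X, p ^ k • x = 0 → g • x - x ∈ K
  hN : ∀ g : G, ∀ y ∈ K, p • y = 0 → g • y = c g • y

namespace CofData

variable {G X : Type} [Group G] [AddCommGroup X] [DistribMulAction G X] {p k : ℕ} {c : G → ℕ}
  (D : CofData G X p k c)

theorem gen_mem : D.gen ∈ D.K := by
  rw [D.K_eq]
  exact AddSubgroup.mem_zmultiples _

theorem card_K : Nat.card ↥D.K = p ^ k := by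
  rw [D.K_eq, Nat.card_zmultiples, D.order]

theorem K_le_tors : D.K ≤ tors X (p ^ k) := by
  rw [D.K_eq, AddSubgroup.zmultiples_le, mem_tors, ← D.order]
  exact addOrderOf_nsmul_eq_zero _

/-- `p⁻¹ K`. -/
def A : AddSubgroup X := D.K.comap (nsmulAddMonoidHom (α := X) p)

theorem mem_A {x : X} : x ∈ D.A ↔ p • x ∈ D.K := Iff.rfl

theorem K_le_A : D.K ≤ D.A := fun x hx => D.K.nsmul_mem hx p

theorem tors_le_A : tors X p ≤ D.A := fun _ hx => by
  rw [mem_A, mem_tors.1 hx]
  exact D.K.zero_mem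

theorem A_stable (g : G) (x : X) (hx : x ∈ D.A) : g • x ∈ D.A := by
  rw [mem_A] at hx ⊢
  rw [← gsmul_nsmul]
  exact D.stable g _ hx

theorem A_le_tors : D.A ≤ tors X (p ^ (k + 1)) := fun x hx => by
  rw [mem_tors, pow_succ, mul_nsmul']
  exact mem_tors.1 (D.K_le_tors hx)

/-- the subgroup `K` inside `p⁻¹ K`. -/
def KA : AddSubgroup ↥D.A := D.K.addSubgroupOf D.A

/-- `V = p⁻¹ K / K`. -/
def V : Type := ↥D.A ⧸ D.KA

instance : AddCommGroup D.V := QuotientAddGroup.Quotient.addCommGroup D.KA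

/-- the projection `p⁻¹ K → V`. -/
def proj : ↥D.A →+ D.V := QuotientAddGroup.mk' D.KA

theorem proj_surjective : Function.Surjective D.proj := QuotientAddGroup.mk'_surjective D.KA

theorem proj_eq_zero_iff (x : ↥D.A) : D.proj x = 0 ↔ (x : X) ∈ D.K := by
  show ((x : ↥D.A ⧸ D.KA)) = 0 ↔ _
  rw [QuotientAddGroup.eq_zero_iff]
  exact AddSubgroup.mem_addSubgroupOf

theorem proj_eq_iff (x y : ↥D.A) : D.proj x = D.proj y ↔ (x : X) - (y : X) ∈ D.K := by
  rw [← sub_eq_zero, ← map_sub, proj_eq_zero_iff]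
  rfl

/-- the action of `G` on `p⁻¹ K`. -/
def actA (g : G) : ↥D.A →+ ↥D.A where
  toFun x := ⟨g • (x : X), D.A_stable g x x.2⟩
  map_zero' := Subtype.ext (smul_zero g)
  map_add' x y := Subtype.ext (smul_add g (x : X) (y : X))

theorem coe_actA (g : G) (x : ↥D.A) : ((D.actA g x : ↥D.A) : X) = g • (x : X) := rfl

/-- the action of `G` on `V`. -/
def actV (g : G) : D.V →+ D.V :=
  QuotientAddGroup.map D.KA D.KA (D.actA g) (fun x hx => by
    rw [AddSubgroup.mem_comap]
    exact AddSubgroup.mem_addSubgroupOf.2 (D.stable g _ (AddSubgroup.mem_addSubgroupOf.1 hx)))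

theorem actV_proj (g : G) (x : ↥D.A) : D.actV g (D.proj x) = D.proj (D.actA g x) := rfl

instance : DistribMulAction G D.V where
  smul g v := D.actV g v
  one_smul v := by
    obtain ⟨x, rfl⟩ := D.proj_surjective v
    show D.actV 1 (D.proj x) = D.proj x
    rw [actV_proj]
    congr 1
    exact Subtype.ext (one_smul G (x : X))
  mul_smul g h v := by
    obtain ⟨x, rfl⟩ := D.proj_surjective v
    show D.actV (g * h) (D.proj x) = D.actV g (D.actV h (D.proj x))
    rw [actV_proj, actV_proj, actV_proj]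
    congr 1
    exact Subtype.ext (mul_smul g h (x : X))
  smul_zero g := map_zero (D.actV g)
  smul_add g v w := map_add (D.actV g) v w

theorem smul_proj (g : G) (x : ↥D.A) : g • D.proj x = D.proj (D.actA g x) := rfl

theorem p_nsmul_eq_zero (v : D.V) : p • v = 0 := by
  obtain ⟨x, rfl⟩ := D.proj_surjective v
  rw [← map_nsmul, proj_eq_zero_iff, AddSubgroup.coe_nsmul]
  exact x.2

instance : Module (ZMod p) D.V := AddCommGroup.zmodModule D.p_nsmul_eq_zero

instance : SMulCommClass G (ZMod p) D.V where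
  smul_comm g a v := (ZMod.map_smul (DistribSMul.toAddMonoidHom D.V g) a v)

theorem natCast_zmod_smul (n : ℕ) (v : D.V) : ((n : ZMod p)) • v = n • v :=
  Nat.cast_smul_eq_nsmul (ZMod p) n v

/-- the image of `X[p]` in `V`. -/
def Cadd : AddSubgroup D.V := ((tors X p).addSubgroupOf D.A).map D.proj

/-- the image of `X[p]` in `V`, as a `ZMod p`-submodule. -/
def C : Submodule (ZMod p) D.V := AddSubgroup.toZModSubmodule p D.Cadd

theorem mem_C {v : D.V} : v ∈ D.C ↔ ∃ x : ↥D.A, p • (x : X) = 0 ∧ D.proj x = v := by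
  show v ∈ D.Cadd ↔ _
  unfold Cadd
  rw [AddSubgroup.mem_map]
  constructor
  · rintro ⟨x, hx, rfl⟩
    exact ⟨x, mem_tors.1 (AddSubgroup.mem_addSubgroupOf.1 hx), rfl⟩
  · rintro ⟨x, hx, rfl⟩
    exact ⟨x, AddSubgroup.mem_addSubgroupOf.2 (mem_tors.2 hx), rfl⟩

theorem C_stable (g : G) (v : D.V) (hv : v ∈ D.C) : g • v ∈ D.C := by
  rw [mem_C] at hv ⊢
  obtain ⟨x, hx, rfl⟩ := hv
  refine ⟨D.actA g x, ?_, rfl⟩
  rw [coe_actA, ← gsmul_nsmul, hx, smul_zero]

theorem C_fixed (hk : 1 ≤ k) (g : G) (v : D.V) (hv : v ∈ D.C) : g • v = v := by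
  rw [mem_C] at hv
  obtain ⟨x, hx, rfl⟩ := hv
  rw [smul_proj, proj_eq_iff, coe_actA]
  refine D.cofix g _ ?_
  obtain ⟨j, rfl⟩ := Nat.exists_eq_add_of_le hk
  rw [pow_add, pow_one, mul_comm p (p ^ j), mul_nsmul', hx, smul_zero]

/-! ### the quotient is cyclotomic -/

/-- `G` acts on `gen` through an integer `≡ c g mod p`. -/
theorem exists_psi (hp : p.Prime) (hk : 1 ≤ k) (g : G) :
    ∃ t : ℤ, g • D.gen = ((c g : ℤ) + p * t) • D.gen := by
  obtain ⟨j, rfl⟩ := Nat.exists_eq_add_of_le hk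
  have h1 : g • D.gen ∈ AddSubgroup.zmultiples D.gen := by
    rw [← D.K_eq]
    exact D.stable g _ D.gen_mem
  obtain ⟨ψ, hψ⟩ := AddSubgroup.mem_zmultiples_iff.1 h1
  -- the element of order `p`
  set y : X := p ^ j • D.gen with hy
  have hyK : y ∈ D.K := D.K.nsmul_mem D.gen_mem _
  have hpy : p • y = 0 := by
    rw [hy, ← mul_nsmul', ← pow_succ', add_comm j 1, ← D.order]
    exact addOrderOf_nsmul_eq_zero _
  have h2 := D.hN g y hyK hpy
  rw [hy, gsmul_nsmul, ← hψ] at h2
  have h3 : ((ψ - (c g : ℤ)) * (p : ℤ) ^ j) • D.gen = 0 := by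
    have e1 : p ^ j • ψ • D.gen = (ψ * (p : ℤ) ^ j) • D.gen := by
      rw [← natCast_zsmul, ← mul_zsmul, Nat.cast_pow, mul_comm]
    have e2 : c g • p ^ j • D.gen = ((c g : ℤ) * (p : ℤ) ^ j) • D.gen := by
      rw [← natCast_zsmul (p ^ j • D.gen), ← natCast_zsmul D.gen, ← mul_zsmul, Nat.cast_pow]
    rw [sub_mul, sub_zsmul, ← e1, ← e2, h2, add_neg_cancel]
  rw [← addOrderOf_dvd_iff_zsmul_eq_zero, D.order, Nat.cast_pow, add_comm 1 j, pow_succ'] at h3
  have hpj : ((p : ℤ) ^ j) ≠ 0 := pow_ne_zero j (Int.natCast_ne_zero.mpr hp.ne_zero)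
  obtain ⟨t, ht⟩ := (mul_dvd_mul_iff_right hpj).1 h3
  refine ⟨t, ?_⟩
  rw [← hψ]
  congr 1
  linarith

theorem cyclo_quot (hp : p.Prime) (hk : 1 ≤ k) (g : G) (v : D.V) :
    g • v - ((c g : ℕ) : ZMod p) • v ∈ D.C := by
  obtain ⟨x, rfl⟩ := D.proj_surjective v
  obtain ⟨t, ht⟩ := D.exists_psi hp hk g
  have hxK : p • (x : X) ∈ AddSubgroup.zmultiples D.gen := by
    rw [← D.K_eq]
    exact x.2
  obtain ⟨m, hm⟩ := AddSubgroup.mem_zmultiples_iff.1 hxK
  -- the correction term
  set w : X := (t * m) • D.gen with hw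
  have hwK : w ∈ D.K := D.K.zsmul_mem D.gen_mem _
  have hwA : w ∈ D.A := D.K_le_A hwK
  let z : ↥D.A := D.actA g x - c g • x - ⟨w, hwA⟩
  have hz : p • (z : X) = 0 := by
    have e0 : (z : X) = g • (x : X) - c g • (x : X) - w := rfl
    have hsub : ∀ a b : ℤ, a • D.gen - b • D.gen = (a - b) • D.gen := fun a b => by
      rw [sub_zsmul, sub_eq_add_neg]
    rw [e0, nsmul_sub, nsmul_sub, ← gsmul_nsmul, nsmul_left_comm, ← hm, gsmul_zsmul, ht, hw,
      ← natCast_zsmul ((t * m) • D.gen), ← natCast_zsmul (m • D.gen), ← mul_zsmul, ← mul_zsmul,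
      ← mul_zsmul, hsub, hsub]
    have : m * ((c g : ℤ) + (p : ℤ) * t) - (c g : ℤ) * m - (p : ℤ) * (t * m) = 0 := by ring
    rw [this, zero_zsmul]
  rw [mem_C]
  refine ⟨z, hz, ?_⟩
  have hw0 : D.proj ⟨w, hwA⟩ = 0 := (D.proj_eq_zero_iff _).2 hwK
  show D.proj (D.actA g x - c g • x - ⟨w, hwA⟩) = _
  rw [map_sub, map_sub, hw0, sub_zero, map_nsmul, natCast_zmod_smul]
  rfl

/-! ### cardinalities -/

theorem finite_K (hp : p.Prime) : Finite ↥D.K :=
  Nat.finite_of_card_ne_zero (by rw [D.card_K]; exact pow_ne_zero k hp.ne_zero)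

/-- `K[p]` has `p` elements. -/
theorem card_K_tors (hp : p.Prime) (hk : 1 ≤ k) :
    Nat.card {x : X // x ∈ D.K ∧ x ∈ tors X p} = p := by
  obtain ⟨j, rfl⟩ := Nat.exists_eq_add_of_le hk
  have h1 := card_eq_map_mul_ker (nsmulAddMonoidHom (α := X) p) D.K
  have h2 : (D.K.map (nsmulAddMonoidHom (α := X) p)) = AddSubgroup.zmultiples (p • D.gen) := by
    rw [D.K_eq, AddMonoidHom.map_zmultiples]
    rfl
  have h3 : Nat.card ↥(AddSubgroup.zmultiples (p • D.gen)) = p ^ j := by
    rw [Nat.card_zmultiples, addOrderOf_nsmul' _ hp.ne_zero, D.order]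
    have : (p ^ (1 + j)).gcd p = p := Nat.gcd_eq_right (dvd_pow_self p (by omega))
    rw [this, add_comm 1 j, pow_succ]
    exact Nat.mul_div_cancel _ hp.pos
  rw [h2, h3, D.card_K, card_addSubgroupOf] at h1
  have h4 : p ^ (1 + j) = p ^ j * p := by rw [add_comm 1 j, pow_succ]
  rw [h4] at h1
  exact (Nat.eq_of_mul_eq_mul_left (pow_pos hp.pos j) h1).symm

variable (hcardp : Nat.card ↥(tors X p) = p ^ 2) (hsurj : ∀ y ∈ D.K, ∃ x : X, p • x = y)

include hcardp hsurj in
theorem card_A : Nat.card ↥D.A = p ^ k * p ^ 2 := by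
  have h1 := card_eq_map_mul_ker (nsmulAddMonoidHom (α := X) p) D.A
  have h2 : D.A.map (nsmulAddMonoidHom (α := X) p) = D.K := by
    unfold A
    refine AddSubgroup.map_comap_eq_self fun y hy => ?_
    obtain ⟨x, hx⟩ := hsurj y hy
    exact ⟨x, hx⟩
  have h3 : Nat.card ↥((nsmulAddMonoidHom (α := X) p).ker.addSubgroupOf D.A) =
      Nat.card ↥(tors X p) :=
    Nat.card_congr (AddSubgroup.addSubgroupOfEquivOfLe D.tors_le_A).toEquiv
  rw [h2, h3, D.card_K, hcardp] at h1
  exact h1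

include hcardp hsurj in
theorem card_V (hp : p.Prime) : Nat.card D.V = p ^ 2 := by
  have h1 := AddSubgroup.card_eq_card_quotient_mul_card_addSubgroup D.KA
  have h2 : Nat.card ↥D.KA = p ^ k := by
    unfold KA
    rw [Nat.card_congr (AddSubgroup.addSubgroupOfEquivOfLe D.K_le_A).toEquiv, D.card_K]
  rw [D.card_A hcardp hsurj, h2, mul_comm (p ^ k)] at h1
  exact (Nat.eq_of_mul_eq_mul_right (pow_pos hp.pos k) h1).symm

include hcardp in
theorem card_C (hp : p.Prime) (hk : 1 ≤ k) : Nat.card ↥D.C = p := by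
  show Nat.card ↥D.Cadd = p
  have h1 := card_eq_map_mul_ker D.proj ((tors X p).addSubgroupOf D.A)
  have h2 : Nat.card ↥((tors X p).addSubgroupOf D.A) = p ^ 2 := by
    rw [Nat.card_congr (AddSubgroup.addSubgroupOfEquivOfLe D.tors_le_A).toEquiv, hcardp]
  have h3 : Nat.card ↥(D.proj.ker.addSubgroupOf ((tors X p).addSubgroupOf D.A)) = p := by
    refine (Nat.card_congr ?_).trans (D.card_K_tors hp hk)
    refine
      { toFun := fun x => ⟨(((x : ↥((tors X p).addSubgroupOf D.A)) : ↥D.A) : X), ?_, ?_⟩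
        invFun := fun x => ⟨⟨⟨x.1, D.K_le_A x.2.1⟩, AddSubgroup.mem_addSubgroupOf.2 x.2.2⟩, ?_⟩
        left_inv := fun _ => rfl
        right_inv := fun _ => rfl }
    · have := AddSubgroup.mem_addSubgroupOf.1 x.2
      exact (D.proj_eq_zero_iff _).1 (AddMonoidHom.mem_ker.1 this)
    · exact AddSubgroup.mem_addSubgroupOf.1 (x : ↥((tors X p).addSubgroupOf D.A)).2
    · refine AddSubgroup.mem_addSubgroupOf.2 (AddMonoidHom.mem_ker.2 ?_)
      exact (D.proj_eq_zero_iff _).2 x.2.1
  rw [h2, h3] at h1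
  unfold Cadd
  have h4 : p ^ 2 = p * p := sq p
  rw [h4] at h1
  exact (Nat.eq_of_mul_eq_mul_right hp.pos h1).symm

/-! ### the next subgroup from a complement -/

section Next

variable (C' : Submodule (ZMod p) D.V)

/-- the preimage of `C'` in `p⁻¹ K`, as a subgroup of `p⁻¹ K`. -/
def nextA : AddSubgroup ↥D.A := C'.toAddSubgroup.comap D.proj

/-- the preimage of `C'` in `p⁻¹ K`, as a subgroup of `X`. -/
def next : AddSubgroup X := (D.nextA C').map D.A.subtype

theorem mem_next {x : X} : x ∈ D.next C' ↔ ∃ h : x ∈ D.A, D.proj ⟨x, h⟩ ∈ C' := by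
  unfold next nextA
  rw [AddSubgroup.mem_map]
  constructor
  · rintro ⟨a, ha, rfl⟩
    exact ⟨a.2, ha⟩
  · rintro ⟨h, hx⟩
    exact ⟨⟨x, h⟩, hx, rfl⟩

theorem next_le_A : D.next C' ≤ D.A := fun _ hx => ((D.mem_next C').1 hx).1

theorem K_le_next : D.K ≤ D.next C' := fun x hx => by
  rw [mem_next]
  refine ⟨D.K_le_A hx, ?_⟩
  rw [(D.proj_eq_zero_iff _).2 hx]
  exact C'.zero_mem

theorem next_stable (hC' : ∀ g : G, ∀ v ∈ C', g • v ∈ C') (g : G) (x : X)
    (hx : x ∈ D.next C') : g • x ∈ D.next C' := by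
  rw [mem_next] at hx ⊢
  obtain ⟨h, hx⟩ := hx
  exact ⟨D.A_stable g x h, hC' g _ hx⟩

theorem next_tors (hdisj : Disjoint D.C C') {x : X} (hx : x ∈ D.next C') (hpx : p • x = 0) :
    x ∈ D.K := by
  obtain ⟨h, hx⟩ := (D.mem_next C').1 hx
  have h1 : D.proj ⟨x, h⟩ ∈ D.C := D.mem_C.2 ⟨⟨x, h⟩, hpx, rfl⟩
  have h2 := (Submodule.disjoint_def.1 hdisj) _ h1 hx
  exact (D.proj_eq_zero_iff _).1 h2

theorem next_le_tors : D.next C' ≤ tors X (p ^ (k + 1)) :=
  (D.next_le_A C').trans D.A_le_tors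

include hcardp hsurj in
theorem card_compl (hp : p.Prime) (hk : 1 ≤ k) (hcompl : IsCompl D.C C') : Nat.card ↥C' = p := by
  have h1 : Nat.card D.V = Nat.card ↥D.C * Nat.card ↥C' := by
    rw [← Nat.card_prod]
    exact (Nat.card_congr (Submodule.prodEquivOfIsCompl D.C C' hcompl).toEquiv).symm
  rw [D.card_V hcardp hsurj hp, D.card_C hcardp hp hk, sq] at h1
  exact (Nat.eq_of_mul_eq_mul_left hp.pos h1).symm

include hcardp hsurj in
theorem card_next (hp : p.Prime) (hk : 1 ≤ k) (hcompl : IsCompl D.C C') :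
    Nat.card ↥(D.next C') = p ^ (k + 1) := by
  unfold next
  rw [AddSubgroup.card_map_of_injective (AddSubgroup.subtype_injective D.A)]
  have h1 := card_eq_map_mul_ker D.proj (D.nextA C')
  have h2 : (D.nextA C').map D.proj = C'.toAddSubgroup := by
    unfold nextA
    exact AddSubgroup.map_comap_eq_self_of_surjective D.proj_surjective _
  have hle : D.proj.ker ≤ D.nextA C' := fun x hx => by
    show D.proj x ∈ C'
    rw [AddMonoidHom.mem_ker.1 hx]
    exact C'.zero_mem
  have hker : D.proj.ker = D.KA := by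
    ext x
    rw [AddMonoidHom.mem_ker, proj_eq_zero_iff]
    exact AddSubgroup.mem_addSubgroupOf.symm
  have h3 : Nat.card ↥(D.proj.ker.addSubgroupOf (D.nextA C')) = p ^ k := by
    rw [Nat.card_congr (AddSubgroup.addSubgroupOfEquivOfLe hle).toEquiv, hker]
    unfold KA
    rw [Nat.card_congr (AddSubgroup.addSubgroupOfEquivOfLe D.K_le_A).toEquiv, D.card_K]
  have h4 : Nat.card ↥(C'.toAddSubgroup) = p := D.card_compl hcardp hsurj C' hp hk hcompl
  rw [h2, h3, h4] at h1
  rw [h1, pow_succ, mul_comm]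

include hcardp hsurj in
/-- the next subgroup is cyclic of order `p^(k+1)`, generated by a `p`-th root of `gen`. -/
theorem exists_gen_next (hp : p.Prime) (hk : 1 ≤ k) (hcompl : IsCompl D.C C') :
    ∃ y : X, p • y = D.gen ∧ D.next C' = AddSubgroup.zmultiples y ∧
      addOrderOf y = p ^ (k + 1) := by
  have hcardN := D.card_next hcardp hsurj C' hp hk hcompl
  haveI : Finite ↥(D.next C') :=
    Nat.finite_of_card_ne_zero (by rw [hcardN]; exact pow_ne_zero _ hp.ne_zero)
  haveI : Finite ↥D.K := D.finite_K hp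
  -- `p • K' = K`
  have h1 := card_eq_map_mul_ker (nsmulAddMonoidHom (α := X) p) (D.next C')
  have h2 : Nat.card ↥((nsmulAddMonoidHom (α := X) p).ker.addSubgroupOf (D.next C')) = p := by
    rw [card_addSubgroupOf]
    refine (Nat.card_congr ?_).trans (D.card_K_tors hp hk)
    refine
      { toFun := fun x => ⟨x.1, D.next_tors C' hcompl.disjoint x.2.1 x.2.2, x.2.2⟩
        invFun := fun x => ⟨x.1, D.K_le_next C' x.2.1, x.2.2⟩
        left_inv := fun _ => rfl
        right_inv := fun _ => rfl }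
  rw [hcardN, h2, pow_succ] at h1
  have h3 : Nat.card ↥((D.next C').map (nsmulAddMonoidHom (α := X) p)) = p ^ k :=
    (Nat.eq_of_mul_eq_mul_right hp.pos h1).symm
  have hle : (D.next C').map (nsmulAddMonoidHom (α := X) p) ≤ D.K := by
    rintro _ ⟨x, hx, rfl⟩
    exact D.next_le_A C' hx
  have heq : (D.next C').map (nsmulAddMonoidHom (α := X) p) = D.K :=
    AddSubgroup.eq_of_le_of_card_ge hle (by rw [h3, D.card_K])
  have hgen : D.gen ∈ (D.next C').map (nsmulAddMonoidHom (α := X) p) := by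
    rw [heq]
    exact D.gen_mem
  obtain ⟨y, hyN, hy⟩ := hgen
  have hy' : p • y = D.gen := hy
  -- the order of `y`
  have hord : addOrderOf y = p ^ (k + 1) := by
    have e1 : addOrderOf (p • y) = p ^ k := by rw [hy', D.order]
    rw [addOrderOf_nsmul' _ hp.ne_zero] at e1
    have hdvd : addOrderOf y ∣ p ^ (k + 1) := by
      rw [addOrderOf_dvd_iff_nsmul_eq_zero, pow_succ, mul_nsmul', hy', ← D.order]
      exact addOrderOf_nsmul_eq_zero _
    have hpo : p ∣ addOrderOf y := by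
      by_contra hnd
      have hcop : (addOrderOf y).gcd p = 1 := by
        rw [Nat.gcd_comm]
        exact (Nat.Prime.coprime_iff_not_dvd hp).2 hnd
      rw [hcop, Nat.div_one] at e1
      apply hnd
      rw [e1]
      exact dvd_pow_self p (by omega)
    rw [Nat.gcd_eq_right hpo] at e1
    rw [pow_succ, ← e1, Nat.div_mul_cancel hpo]
  refine ⟨y, hy', ?_, hord⟩
  symm
  refine AddSubgroup.eq_of_le_of_card_ge ((AddSubgroup.zmultiples_le).2 hyN) ?_
  rw [hcardN, Nat.card_zmultiples, hord]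

include hcardp hsurj in
/-- **the next `CofData`**, given the cofixedness at level `k + 1`. -/
theorem exists_nextData (hp : p.Prime) (hk : 1 ≤ k) (hcompl : IsCompl D.C C')
    (hC' : ∀ g : G, ∀ v ∈ C', g • v ∈ C')
    (hcofix : ∀ g : G, ∀ x : X, p ^ (k + 1) • x = 0 → g • x - x ∈ D.next C') :
    ∃ D' : CofData G X p (k + 1) c, D'.K = D.next C' ∧ p • D'.gen = D.gen := by
  obtain ⟨y, hy, hKeq, hord⟩ := D.exists_gen_next hcardp hsurj C' hp hk hcompl
  exact ⟨{ K := D.next C'
           stable := D.next_stable C' hC'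
           gen := y
           K_eq := hKeq
           order := hord
           cofix := hcofix
           hN := fun g z hz hpz => D.hN g z (D.next_tors C' hcompl.disjoint hz hpz) hpz }, rfl, hy⟩

end Next

end CofData

end Fermat.Agent.MS.STEP.StepAlg8
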