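/-
Programme MS (S12), area STEP (helper8): **the inductive step of Route B, from named local inputs.**

GENERIC in the curve: `E : WeierstrassCurve ℚ` (with `(E⁄ℚ̄).Δ ≠ 0`), `X = E(ℚ̄)`, `G = G_ℚ`,
`p ≥ 3` prime, `c = ExtCitation.cycloExp p`.  `CofG E p k := StepAlg8.CofData G X p k c` (generic), `Cof P k := CofG P.freyCurve P.p k`.
Instantiate with `E := P.freyCurve` or with `E := W.map (Int.castRingHom ℚ)`, `W := P.freyCurveInt`
(`MS/LOC/FreyInt2.map_freyCurveInt` identifies the two).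

* `card_tors_pG`, `exists_div_of_torsG` : `#E[p] = p²`, divisibility by `p` inside the `p`-power torsion;
* `fixerV`, `isOpen_fixerV` : the pointwise fixer of `V = p⁻¹K/K` is open;
* `UnramAt D`, `SplitAt D`, `ThetaLocal D C'` : the three local inputs of the step, as predicates on
  `D : CofG E p k` in the exact shape of `ExtCitation.IsAdmissibleExtension` / `S13/UnramBridge`;
* `admissible` : `IsAdmissibleExtensionCts p D.V D.C` from `UnramAt D`, `SplitAt D`;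
* `exists_compl` : S14 gives a `G_ℚ`-stable complement `C'` of `C` in `V`;
* `cofix_next` : `ThetaLocal D C'` ⟹ `G_ℚ` acts trivially on `E[p^(k+1)] / next C'`;
* **`cof_succ`** : `CofG E p k`, `1 ≤ k`, + the three inputs ⟹ `CofG E p (k+1)`;
* **`cof_all`** : induction with an arbitrary invariant `Inv`;
* `exists_set_of_cof` : the shape consumed by `MS/END/CofEnd8.not_forall_cof`.
-/
import Mathlib
import Fermat.Agent.MS.STEP.StepAlg8
import Fermat.Agent.S13.UnramBridge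
import Fermat.Agent.DivPoly.CardEq29
import Fermat.Agent.S14
import Fermat.Prelude.Def_FLTPrelim_FreyPackage
import Fermat.Agent.S13.FreyDelta

set_option autoImplicit false
set_option linter.unusedSectionVars false
set_option linter.unusedVariables false
set_option linter.style.longLine false
set_option linter.style.haveILetI false

open WeierstrassCurve WeierstrassCurve.Affine

namespace Fermat.Agent.MS.STEP.CofStep8

open Fermat.Agent.MS.STEP.StepAlg8

local notation "Qbar" => AlgebraicClosure ℚ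
local notation "GQ" => (AlgebraicClosure ℚ ≃ₐ[ℚ] AlgebraicClosure ℚ)

/-- the points of `E` over `ℚ̄`. -/
abbrev EPtG (E : WeierstrassCurve ℚ) : Type := (E⁄Qbar).Point

/-- `CofG(k)` : a `G_ℚ`-stable cyclic `K ⊆ E[p^k]` of order `p^k` with trivial action on
`E[p^k]/K` and cyclotomic action on `K[p]`. -/
abbrev CofG (E : WeierstrassCurve ℚ) (p : ℕ) [Fact p.Prime] (k : ℕ) : Type :=
  CofData GQ (EPtG E) p k (ExtCitation.cycloExp p)

/-- `P.p` is prime. -/
instance instFactPrimeP (P : FreyPackage) : Fact P.p.Prime := ⟨P.pp⟩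

/-- `CofG(k)` for the Frey curve `P.freyCurve`. -/
abbrev CofF (P : FreyPackage) (k : ℕ) : Type := CofG P.freyCurve P.p k

variable (E : WeierstrassCurve ℚ) (p : ℕ) [hpF : Fact p.Prime]

/-! ### torsion counts -/

/-- `tors X n` and `Submodule.torsionBy` have the same elements. -/
theorem mem_torsionBy_iff_mem_torsG (n : ℕ) (x : EPtG E) :
    x ∈ Submodule.torsionBy ℤ (EPtG E) (n : ℤ) ↔ x ∈ tors (EPtG E) n := by
  rw [Submodule.mem_torsionBy_iff, natCast_zsmul, mem_tors]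

section Counts

variable (hΔ : (E⁄Qbar).Δ ≠ 0) (h3 : 3 ≤ p)

include hpF h3 in
theorem odd_pG : Odd p := hpF.out.odd_of_ne_two (by omega)

include hΔ h3 in
theorem card_tors_powG (j : ℕ) : Nat.card ↥(tors (EPtG E) (p ^ j)) = (p ^ j) ^ 2 := by
  have hodd : Odd (p ^ j) := (odd_pG p h3).pow
  rw [← Fermat.Agent.DivPoly.CardEq29.card_torsionBy_eq (W := (E⁄Qbar)) hΔ hodd]
  exact Nat.card_congr (Equiv.subtypeEquivRight fun x =>
    (mem_torsionBy_iff_mem_torsG E (p ^ j) x).symm)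

include hΔ h3 in
theorem card_tors_pG : Nat.card ↥(tors (EPtG E) p) = p ^ 2 := by
  have := card_tors_powG E p hΔ h3 1
  rwa [pow_one] at this

include hΔ h3 in
theorem finite_tors_powG (j : ℕ) : Finite ↥(tors (EPtG E) (p ^ j)) :=
  Nat.finite_of_card_ne_zero (by
    rw [card_tors_powG E p hΔ h3]
    exact pow_ne_zero _ (pow_ne_zero _ hpF.out.ne_zero))

include hΔ h3 in
theorem finite_torsionBy_powG (j : ℕ) :
    Finite (Submodule.torsionBy ℤ (E⁄Qbar).Point ((p ^ j : ℕ) : ℤ)) :=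
  Nat.finite_of_card_ne_zero (by
    rw [Fermat.Agent.DivPoly.CardEq29.card_torsionBy_eq (W := (E⁄Qbar)) hΔ (odd_pG p h3).pow]
    exact pow_ne_zero _ (pow_ne_zero _ hpF.out.ne_zero))

include hΔ h3 in
/-- divisibility by `p` inside the `p`-power torsion. -/
theorem exists_div_of_torsG (j : ℕ) (y : EPtG E) (hy : p ^ j • y = 0) :
    ∃ x : EPtG E, p • x = y := by
  have hppos : 0 < p := hpF.out.pos
  haveI := finite_tors_powG E p hΔ h3 j
  have h1 := card_eq_map_mul_ker (nsmulAddMonoidHom (α := EPtG E) p) (tors (EPtG E) (p ^ (j + 1)))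
  have hle : tors (EPtG E) p ≤ tors (EPtG E) (p ^ (j + 1)) := fun x hx => by
    rw [mem_tors, pow_succ, mul_nsmul', mem_tors.1 hx, nsmul_zero]
  have h2 : Nat.card ↥((nsmulAddMonoidHom (α := EPtG E) p).ker.addSubgroupOf
      (tors (EPtG E) (p ^ (j + 1)))) = p ^ 2 := by
    rw [← card_tors_pG E p hΔ h3]
    exact Nat.card_congr (AddSubgroup.addSubgroupOfEquivOfLe hle).toEquiv
  rw [card_tors_powG E p hΔ h3, h2] at h1
  have hmle : (tors (EPtG E) (p ^ (j + 1))).map (nsmulAddMonoidHom (α := EPtG E) p) ≤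
      tors (EPtG E) (p ^ j) := by
    rintro _ ⟨x, hx, rfl⟩
    rw [mem_tors]
    show p ^ j • (p • x) = 0
    rw [← mul_nsmul', ← pow_succ]
    exact mem_tors.1 hx
  have h3' : Nat.card ↥((tors (EPtG E) (p ^ (j + 1))).map (nsmulAddMonoidHom (α := EPtG E) p)) =
      (p ^ j) ^ 2 := by
    have e : (p ^ (j + 1)) ^ 2 = (p ^ j) ^ 2 * p ^ 2 := by ring
    rw [e] at h1
    exact (Nat.eq_of_mul_eq_mul_right (pow_pos hppos 2) h1).symm
  have heq := AddSubgroup.eq_of_le_of_card_ge hmle (by rw [h3', card_tors_powG E p hΔ h3])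
  have hy' : y ∈ (tors (EPtG E) (p ^ (j + 1))).map (nsmulAddMonoidHom (α := EPtG E) p) := by
    rw [heq]
    exact mem_tors.2 hy
  obtain ⟨x, -, hx⟩ := hy'
  exact ⟨x, hx⟩

variable {E p}

include hΔ h3 in
theorem exists_div_of_mem_KG {k : ℕ} (D : CofG E p k) : ∀ y ∈ D.K, ∃ x : EPtG E, p • x = y :=
  fun y hy => exists_div_of_torsG E p hΔ h3 k y (mem_tors.1 (D.K_le_tors hy))

end Counts

variable {E p}

/-! ### a Galois element fixing the coordinates of the torsion fixes the torsion -/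

theorem smul_eq_of_coordSet (n : ℕ) (σ : GQ)
    (h : ∀ z ∈ Fermat.Agent.S13.UnramMain.coordSet E n, σ z = z) (x : EPtG E) (hx : n • x = 0) :
    σ • x = x := by
  have hx' : x ∈ Submodule.torsionBy ℤ (E⁄Qbar).Point (n : ℤ) :=
    (mem_torsionBy_iff_mem_torsG E n x).2 (mem_tors.2 hx)
  have := Fermat.Agent.S13.UnramMain.smul_eq_self_of_coordSet (W' := E) (n := n) σ h ⟨x, hx'⟩
  exact congrArg Subtype.val this

/-! ### the fixer of `V` is open -/

/-- the pointwise fixer of `V = p⁻¹K/K`, as a subgroup of `G_ℚ`. -/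
def fixerV {k : ℕ} (D : CofG E p k) : Subgroup GQ where
  carrier := {σ | ∀ v : D.V, σ • v = v}
  one_mem' := fun v => one_smul _ v
  mul_mem' := fun {a b} ha hb v => by rw [mul_smul, hb v, ha v]
  inv_mem' := fun {a} ha v => by rw [inv_smul_eq_iff, ha v]

theorem isOpen_fixerV (hΔ : (E⁄Qbar).Δ ≠ 0) (h3 : 3 ≤ p) {k : ℕ} (D : CofG E p k) :
    IsOpen ((fixerV D : Subgroup GQ) : Set GQ) := by
  haveI := finite_torsionBy_powG E p hΔ h3 (k + 1)
  have hS : (Fermat.Agent.S13.UnramMain.coordSet E (p ^ (k + 1))).Finite :=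
    Fermat.Agent.S13.UnramMain.coordSet_finite
  set F : IntermediateField ℚ Qbar :=
    IntermediateField.adjoin ℚ (Fermat.Agent.S13.UnramMain.coordSet E (p ^ (k + 1))) with hF
  haveI : Finite ↥(Fermat.Agent.S13.UnramMain.coordSet E (p ^ (k + 1))) := hS.to_subtype
  haveI : FiniteDimensional ℚ F :=
    IntermediateField.finiteDimensional_adjoin (fun x _ => Algebra.IsIntegral.isIntegral x)
  have hle : F.fixingSubgroup ≤ fixerV D := by
    intro σ hσ v
    obtain ⟨x, rfl⟩ := D.proj_surjective v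
    rw [CofData.smul_proj]
    congr 1
    apply Subtype.ext
    rw [CofData.coe_actA]
    refine smul_eq_of_coordSet (p ^ (k + 1)) σ (fun z hz => ?_) _ (mem_tors.1 (D.A_le_tors x.2))
    exact (IntermediateField.mem_fixingSubgroup_iff F σ).1 hσ z
      (IntermediateField.subset_adjoin ℚ _ hz)
  exact Subgroup.isOpen_mono hle (IntermediateField.fixingSubgroup_isOpen F)

/-! ### the local inputs of the step -/

/-- **(L1)** `p⁻¹K_k / K_k` is unramified outside `p`. -/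
def UnramAt {k : ℕ} (D : CofG E p k) : Prop :=
  ∀ ℓ : ℕ, ℓ.Prime → ℓ ≠ p → ∀ A : ValuationSubring Qbar, A.LiesOverPrime ℓ →
    ∀ σ ∈ A.inertiaSubgroupIn ℚ, ∀ x : EPtG E, p • x ∈ D.K → σ • x - x ∈ D.K

/-- **(L2)** `p⁻¹K_k / K_k` is locally split at `p`. -/
def SplitAt {k : ℕ} (D : CofG E p k) : Prop :=
  ∀ A : ValuationSubring Qbar, A.LiesOverPrime p →
    ∃ C' : Submodule (ZMod p) D.V,
      (∀ σ ∈ A.decompositionSubgroup ℚ, ∀ x ∈ C', σ • x ∈ C') ∧ IsCompl D.C C'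

/-- **(L3)** the quotient `E[p^(k+1)] / K_{k+1}` is unramified everywhere. -/
def ThetaLocal {k : ℕ} (D : CofG E p k) (C' : Submodule (ZMod p) D.V) : Prop :=
  ∀ q : ℕ, q.Prime → ∃ A : ValuationSubring Qbar, A.LiesOverPrime q ∧
    ∀ σ ∈ A.inertiaSubgroupIn ℚ, ∀ x : EPtG E, p ^ (k + 1) • x = 0 → σ • x - x ∈ D.next C'

/-! ### admissibility and the global complement -/

theorem admissible (hΔ : (E⁄Qbar).Δ ≠ 0) (h3 : 3 ≤ p) {k : ℕ} (D : CofG E p k) (hk : 1 ≤ k)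
    (hu : UnramAt D) (hs : SplitAt D) : ExtCitation.IsAdmissibleExtensionCts p D.V D.C where
  stable := D.C_stable
  fixed_sub := D.C_fixed hk
  cyclo_quot := fun σ x => D.cyclo_quot hpF.out hk σ x
  card_sub := D.card_C (card_tors_pG E p hΔ h3) hpF.out hk
  card_total := D.card_V (card_tors_pG E p hΔ h3) (exists_div_of_mem_KG hΔ h3 D) hpF.out
  unramified_outside := fun ℓ hℓ hℓp A hA σ hσ x => by
    obtain ⟨y, rfl⟩ := D.proj_surjective x
    rw [CofData.smul_proj, CofData.proj_eq_iff, CofData.coe_actA]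
    exact hu ℓ hℓ hℓp A hA σ hσ y y.2
  locally_split := hs
  open_kernel := isOpen_fixerV hΔ h3 D

/-- **S14**: a `G_ℚ`-stable complement of `C` in `V`. -/
theorem exists_compl (hΔ : (E⁄Qbar).Δ ≠ 0) (h3 : 3 ≤ p) {k : ℕ} (D : CofG E p k) (hk : 1 ≤ k)
    (hu : UnramAt D) (hs : SplitAt D) :
    ∃ C' : Submodule (ZMod p) D.V, (∀ σ : GQ, ∀ v ∈ C', σ • v ∈ C') ∧ IsCompl D.C C' :=
  Fermat.Agent.S14.result (p := p) h3 D.V D.C (admissible hΔ h3 D hk hu hs)

/-! ### `θ` is trivial -/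

/-- the subgroup of `G_ℚ` acting trivially on `E[n] / K'`, for a stable subgroup `K'`. -/
def kerTheta (n : ℕ) (K' : AddSubgroup (EPtG E)) (hK' : ∀ σ : GQ, ∀ x ∈ K', σ • x ∈ K') :
    Subgroup GQ where
  carrier := {σ | ∀ x : EPtG E, n • x = 0 → σ • x - x ∈ K'}
  one_mem' := fun x _ => by rw [one_smul, sub_self]; exact K'.zero_mem
  mul_mem' := fun {a b} ha hb x hx => by
    have e : (a * b) • x - x = a • (b • x - x) + (a • x - x) := by
      rw [mul_smul, smul_sub]; abel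
    rw [e]
    exact K'.add_mem (hK' a _ (hb x hx)) (ha x hx)
  inv_mem' := fun {a} ha x hx => by
    have e : a⁻¹ • x - x = -(a⁻¹ • (a • x - x)) := by
      rw [smul_sub, inv_smul_smul]; abel
    rw [e]
    exact K'.neg_mem (hK' a⁻¹ _ (ha x hx))

theorem kerTheta_normal (n : ℕ) (K' : AddSubgroup (EPtG E))
    (hK' : ∀ σ : GQ, ∀ x ∈ K', σ • x ∈ K') : (kerTheta n K' hK').Normal := by
  refine ⟨fun τ hτ σ x hx => ?_⟩
  have hx' : n • (σ⁻¹ • x) = 0 := by
    have h := gsmul_nsmul σ⁻¹ n x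
    rw [← h, hx, smul_zero]
  have e : (σ * τ * σ⁻¹) • x - x = σ • (τ • (σ⁻¹ • x) - σ⁻¹ • x) := by
    rw [mul_smul, mul_smul, smul_sub, smul_inv_smul]
  rw [e]
  exact hK' σ _ (hτ _ hx')

/-- **`θ_{k+1} = 1`**: if `E[p^(k+1)]/K'` is unramified everywhere (`K'` stable), `G_ℚ` acts
trivially on it. -/
theorem cofix_of_local (hΔ : (E⁄Qbar).Δ ≠ 0) (h3 : 3 ≤ p) (j : ℕ) (K' : AddSubgroup (EPtG E))
    (hK' : ∀ σ : GQ, ∀ x ∈ K', σ • x ∈ K')
    (hθ : ∀ q : ℕ, q.Prime → ∃ A : ValuationSubring Qbar, A.LiesOverPrime q ∧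
      ∀ σ ∈ A.inertiaSubgroupIn ℚ, ∀ x : EPtG E, p ^ j • x = 0 → σ • x - x ∈ K') :
    ∀ σ : GQ, ∀ x : EPtG E, p ^ j • x = 0 → σ • x - x ∈ K' := by
  haveI := finite_torsionBy_powG E p hΔ h3 j
  haveI := kerTheta_normal (p ^ j) K' hK'
  have htop : kerTheta (p ^ j) K' hK' = ⊤ :=
    Fermat.Agent.S13.UnramBridge.eq_top_of_finite_set (kerTheta (p ^ j) K' hK')
      (Fermat.Agent.S13.UnramMain.coordSet E (p ^ j)) Fermat.Agent.S13.UnramMain.coordSet_finite
      (fun σ hσ x hx => by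
        rw [smul_eq_of_coordSet (p ^ j) σ hσ x hx, sub_self]
        exact K'.zero_mem)
      (fun q hq => by
        obtain ⟨A, hA, h⟩ := hθ q hq
        exact ⟨A, hA, fun σ hσ => h σ hσ⟩)
  intro σ
  have : σ ∈ kerTheta (p ^ j) K' hK' := htop ▸ Subgroup.mem_top σ
  exact this

theorem cofix_next (hΔ : (E⁄Qbar).Δ ≠ 0) (h3 : 3 ≤ p) {k : ℕ} (D : CofG E p k)
    (C' : Submodule (ZMod p) D.V) (hC' : ∀ σ : GQ, ∀ v ∈ C', σ • v ∈ C')
    (hθ : ThetaLocal D C') :
    ∀ σ : GQ, ∀ x : EPtG E, p ^ (k + 1) • x = 0 → σ • x - x ∈ D.next C' :=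
  cofix_of_local hΔ h3 (k + 1) (D.next C') (D.next_stable C' hC') hθ

/-! ### the step -/

/-- **the inductive step**, for a given stable complement. -/
theorem cof_succ_of_compl (hΔ : (E⁄Qbar).Δ ≠ 0) (h3 : 3 ≤ p) {k : ℕ} (D : CofG E p k) (hk : 1 ≤ k)
    (C' : Submodule (ZMod p) D.V) (hC' : ∀ σ : GQ, ∀ v ∈ C', σ • v ∈ C') (hcompl : IsCompl D.C C')
    (hθ : ThetaLocal D C') :
    ∃ D' : CofG E p (k + 1), D'.K = D.next C' ∧ p • D'.gen = D.gen :=
  D.exists_nextData (card_tors_pG E p hΔ h3) (exists_div_of_mem_KG hΔ h3 D) C' hpF.out hk hcompl hC'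
    (cofix_next hΔ h3 D C' hC' hθ)

/-- **the inductive step** `CofG(k) ⟹ CofG(k+1)` from the three local inputs. -/
theorem cof_succ (hΔ : (E⁄Qbar).Δ ≠ 0) (h3 : 3 ≤ p) {k : ℕ} (D : CofG E p k) (hk : 1 ≤ k)
    (hu : UnramAt D) (hs : SplitAt D)
    (hθ : ∀ C' : Submodule (ZMod p) D.V, (∀ σ : GQ, ∀ v ∈ C', σ • v ∈ C') → IsCompl D.C C' →
      ThetaLocal D C') :
    ∃ (C' : Submodule (ZMod p) D.V) (D' : CofG E p (k + 1)),
      (∀ σ : GQ, ∀ v ∈ C', σ • v ∈ C') ∧ IsCompl D.C C' ∧ D'.K = D.next C' ∧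
        p • D'.gen = D.gen := by
  obtain ⟨C', hC', hcompl⟩ := exists_compl hΔ h3 D hk hu hs
  obtain ⟨D', h1, h2⟩ := cof_succ_of_compl hΔ h3 D hk C' hC' hcompl (hθ C' hC' hcompl)
  exact ⟨C', D', hC', hcompl, h1, h2⟩

/-- **induction with an invariant.** -/
theorem cof_all (hΔ : (E⁄Qbar).Δ ≠ 0) (h3 : 3 ≤ p) (Inv : ∀ k : ℕ, CofG E p k → Prop)
    (base : ∃ D : CofG E p 1, Inv 1 D)
    (hu : ∀ (k : ℕ) (D : CofG E p k), 1 ≤ k → Inv k D → UnramAt D)
    (hs : ∀ (k : ℕ) (D : CofG E p k), 1 ≤ k → Inv k D → SplitAt D)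
    (hθ : ∀ (k : ℕ) (D : CofG E p k), 1 ≤ k → Inv k D → ∀ C' : Submodule (ZMod p) D.V,
      (∀ σ : GQ, ∀ v ∈ C', σ • v ∈ C') → IsCompl D.C C' → ThetaLocal D C')
    (hinv : ∀ (k : ℕ) (D : CofG E p k), 1 ≤ k → Inv k D → ∀ C' : Submodule (ZMod p) D.V,
      (∀ σ : GQ, ∀ v ∈ C', σ • v ∈ C') → IsCompl D.C C' → ∀ D' : CofG E p (k + 1),
      D'.K = D.next C' → p • D'.gen = D.gen → Inv (k + 1) D') :
    ∀ k : ℕ, 1 ≤ k → ∃ D : CofG E p k, Inv k D := by
  intro k hk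
  induction k, hk using Nat.le_induction with
  | base => exact base
  | succ k hk ih =>
    obtain ⟨D, hD⟩ := ih
    obtain ⟨C', D', hC', hcompl, h1, h2⟩ :=
      cof_succ hΔ h3 D hk (hu k D hk hD) (hs k D hk hD) (hθ k D hk hD)
    exact ⟨D', hinv k D hk hD C' hC' hcompl D' h1 h2⟩

/-- the shape consumed by `MS/END/CofEnd8.not_forall_cof`. -/
theorem exists_set_of_cof {k : ℕ} (D : CofG E p k) :
    ∃ K : Set (EPtG E), K.Finite ∧ K.ncard ≤ p ^ k ∧
      ∀ σ : GQ, ∀ Q : EPtG E, p ^ k • Q = 0 → σ • Q - Q ∈ K := by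
  haveI := D.finite_K hpF.out
  refine ⟨(D.K : Set (EPtG E)), Set.toFinite _, ?_, fun σ Q hQ => D.cofix σ Q hQ⟩
  have h1 : ((D.K : Set (EPtG E))).ncard = Nat.card ↥D.K := rfl
  rw [h1, D.card_K]

/-- `CofG(k)` for all `k` gives the hypothesis of `CofEnd8.not_forall_cof`. -/
theorem forall_set_of_forall_cof (h : ∀ k : ℕ, 1 ≤ k → Nonempty (CofG E p k)) :
    ∀ k : ℕ, ∃ K : Set (EPtG E), K.Finite ∧ K.ncard ≤ p ^ k ∧
      ∀ σ : GQ, ∀ Q : EPtG E, p ^ k • Q = 0 → σ • Q - Q ∈ K := by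
  intro k
  rcases Nat.eq_zero_or_pos k with rfl | hk
  · refine ⟨{0}, Set.finite_singleton 0, by simp, fun σ Q hQ => ?_⟩
    rw [pow_zero, one_nsmul] at hQ
    have h0 : σ • (0 : EPtG E) = 0 := smul_zero (A := EPtG E) σ
    rw [hQ, h0, sub_self]
    rfl
  · obtain ⟨D⟩ := h k hk
    exact exists_set_of_cof D

/-! ### the Frey curve `P.freyCurve` (the API of the first version of this file) -/

section Frey

/-- the points of the Frey curve over `ℚ̄`. -/
abbrev EPt (P : FreyPackage) : Type := EPtG P.freyCurve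

/-- `Cof(k)` for the Frey curve. -/
abbrev Cof (P : FreyPackage) (k : ℕ) : Type := CofG P.freyCurve P.p k

variable (P : FreyPackage)

theorem frey_Δ_ne_zero : (P.freyCurve⁄Qbar).Δ ≠ 0 :=
  Fermat.Agent.S13.FreyDelta.freyCurve_baseChange_Δ_ne_zero P Qbar

theorem frey_three_le : 3 ≤ P.p := le_trans (by norm_num) P.hp5

theorem mem_torsionBy_iff_mem_tors (n : ℕ) (x : EPt P) :
    x ∈ Submodule.torsionBy ℤ (EPt P) (n : ℤ) ↔ x ∈ tors (EPt P) n :=
  mem_torsionBy_iff_mem_torsG P.freyCurve n x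

theorem card_tors_pow (j : ℕ) : Nat.card ↥(tors (EPt P) (P.p ^ j)) = (P.p ^ j) ^ 2 :=
  card_tors_powG P.freyCurve P.p (frey_Δ_ne_zero P) (frey_three_le P) j

theorem card_tors_p : Nat.card ↥(tors (EPt P) P.p) = P.p ^ 2 :=
  card_tors_pG P.freyCurve P.p (frey_Δ_ne_zero P) (frey_three_le P)

theorem finite_tors_pow (j : ℕ) : Finite ↥(tors (EPt P) (P.p ^ j)) :=
  finite_tors_powG P.freyCurve P.p (frey_Δ_ne_zero P) (frey_three_le P) j

theorem exists_div_of_tors (j : ℕ) (y : EPt P) (hy : P.p ^ j • y = 0) :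
    ∃ x : EPt P, P.p • x = y :=
  exists_div_of_torsG P.freyCurve P.p (frey_Δ_ne_zero P) (frey_three_le P) j y hy

variable {P}

theorem exists_div_of_mem_K {k : ℕ} (D : Cof P k) : ∀ y ∈ D.K, ∃ x : EPt P, P.p • x = y :=
  exists_div_of_mem_KG (frey_Δ_ne_zero P) (frey_three_le P) D

end Frey

end Fermat.Agent.MS.STEP.CofStep8
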