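/-
Programme MS (S12), area STEP (helper8): **assembly of Route B from named inputs.**

`W : WeierstrassCurve ℤ`, `E_W := W.map (Int.castRingHom ℚ)`, `p ≥ 3` prime.  The invariant of the
induction is `CanAt W D` (`K_k` lies in the zero component at every place over a prime `ℓ ≠ p` dividing
`W.Δ`).  Named inputs (each a `Prop`, generic in the curve so that statements proved for `P.freyCurve`
transport along `MS/LOC/FreyInt2.map_freyCurveInt`):

* `MuLineProp E p`      (G2) `G_ℚ` acts on every cofixed stable line through `cycloExp p`;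
* `BaseCanProp W p`     base canonicity: a cofixed stable line lies in the zero component at every bad place;
* `UnramProp W p`       (L1) `CanAt W D → UnramAt D`;
* `SplitProp E p`       (L2) `SplitAt D`;
* `CanPropagateProp W p`(I-m) `CanAt W D → CanAtK W p (D.next C')` for a `G_ℚ`-stable complement `C'`;
* `ThetaOutProp W p`    (L3, `q ≠ p`);
* `ThetaPProp E p`      (L3, `q = p`).

* `base_of_line` : a cofixed stable line gives `D : CofG E p 1` with `D.K` = the line;
* **`cof_all_of_inputs`** : `∀ k ≥ 1, ∃ D : CofG E_W p k, CanAt W D`;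
* **`s12_of_inputs`** : `¬ HasGaloisStableCofixedLine ℚ P.freyCurve P.p` from the inputs for
  `W := P.freyCurveInt` (each input may assume the cofixed line).
-/
import Mathlib
import Fermat.Agent.MS.STEP.CofStep8
import Fermat.Agent.MS.END.CofEnd8
import Fermat.Agent.MS.LOC.FreyInt2
import Fermat.Prelude.Def_FLTPrelim_CofixedLine
import Fermat.Prelude.Def_EllipticCurve_ZeroComponentAt

set_option autoImplicit false
set_option linter.unusedSectionVars false
set_option linter.unusedVariables false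
set_option linter.style.longLine false
set_option linter.style.haveILetI false

open WeierstrassCurve WeierstrassCurve.Affine WeierstrassCurve.Affine.Point

namespace Fermat.Agent.MS.STEP.Assemble8

open Fermat.Agent.MS.STEP.StepAlg8 Fermat.Agent.MS.STEP.CofStep8

local notation "Qbar" => AlgebraicClosure ℚ
local notation "GQ" => (AlgebraicClosure ℚ ≃ₐ[ℚ] AlgebraicClosure ℚ)

/-- the rational curve of an integral model. -/
abbrev QC (W : WeierstrassCurve ℤ) : WeierstrassCurve ℚ := W.map (Int.castRingHom ℚ)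

/-! ### the invariant -/

/-- `K` lies in the zero component at every place over a prime `ℓ ≠ p` of bad reduction. -/
def CanAtK (W : WeierstrassCurve ℤ) (p : ℕ) (K : AddSubgroup (EPtG (QC W))) : Prop :=
  ∀ ℓ : ℕ, ℓ.Prime → ℓ ≠ p → (ℓ : ℤ) ∣ W.Δ → ∀ A : ValuationSubring Qbar, A.LiesOverPrime ℓ →
    ∀ x ∈ K, W.InZeroComponentAt A x

/-- the invariant of the induction. -/
def CanAt (W : WeierstrassCurve ℤ) {p : ℕ} [Fact p.Prime] {k : ℕ} (D : CofG (QC W) p k) : Prop :=
  CanAtK W p D.K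

/-! ### the named inputs -/

section Props

variable (E : WeierstrassCurve ℚ) (W : WeierstrassCurve ℤ) (p : ℕ) [hpF : Fact p.Prime]

/-- **(G2)** `G_ℚ` acts on every cofixed stable line of `E[p]` through `cycloExp p`. -/
def MuLineProp : Prop :=
  ∀ N : Submodule (ZMod p) (Submodule.torsionBy ℤ (E⁄Qbar).Point p),
    IsGaloisStable ℚ N → N ≠ ⊥ → N ≠ ⊤ →
    (∀ σ : GQ, ∀ x : Submodule.torsionBy ℤ (E⁄Qbar).Point p, σ • x - x ∈ N) →
    ∀ σ : GQ, ∀ x ∈ N, σ • (x : (E⁄Qbar).Point) = ExtCitation.cycloExp p σ • (x : (E⁄Qbar).Point)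

/-- **base canonicity**: a cofixed stable line lies in the zero component at every bad place. -/
def BaseCanProp : Prop :=
  ∀ N : Submodule (ZMod p) (Submodule.torsionBy ℤ ((QC W)⁄Qbar).Point p),
    IsGaloisStable ℚ N → N ≠ ⊥ → N ≠ ⊤ →
    (∀ σ : GQ, ∀ x : Submodule.torsionBy ℤ ((QC W)⁄Qbar).Point p, σ • x - x ∈ N) →
    ∀ ℓ : ℕ, ℓ.Prime → ℓ ≠ p → (ℓ : ℤ) ∣ W.Δ → ∀ A : ValuationSubring Qbar, A.LiesOverPrime ℓ →
      ∀ x ∈ N, W.InZeroComponentAt A (x : ((QC W)⁄Qbar).Point)

/-- **(L1)** -/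
def UnramProp : Prop :=
  ∀ (k : ℕ) (D : CofG (QC W) p k), 1 ≤ k → CanAt W D → UnramAt D

/-- **(L2)** -/
def SplitProp : Prop :=
  ∀ (k : ℕ) (D : CofG E p k), 1 ≤ k → SplitAt D

/-- **(I-m)** canonicity propagates to the next subgroup. -/
def CanPropagateProp : Prop :=
  ∀ (k : ℕ) (D : CofG (QC W) p k), 1 ≤ k → CanAt W D → ∀ C' : Submodule (ZMod p) D.V,
    (∀ σ : GQ, ∀ v ∈ C', σ • v ∈ C') → IsCompl D.C C' → CanAtK W p (D.next C')

/-- **(L3)** away from `p`. -/
def ThetaOutProp : Prop :=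
  ∀ (k : ℕ) (D : CofG (QC W) p k), 1 ≤ k → ∀ C' : Submodule (ZMod p) D.V,
    (∀ σ : GQ, ∀ v ∈ C', σ • v ∈ C') → IsCompl D.C C' → CanAtK W p (D.next C') →
    ∀ q : ℕ, q.Prime → q ≠ p → ∀ A : ValuationSubring Qbar, A.LiesOverPrime q →
      ∀ σ ∈ A.inertiaSubgroupIn ℚ, ∀ x : EPtG (QC W), p ^ (k + 1) • x = 0 →
        σ • x - x ∈ D.next C'

/-- **(L3)** at `p`. -/
def ThetaPProp : Prop :=
  ∀ (k : ℕ) (D : CofG E p k), 1 ≤ k → ∀ C' : Submodule (ZMod p) D.V,
    (∀ σ : GQ, ∀ v ∈ C', σ • v ∈ C') → IsCompl D.C C' →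
    ∀ A : ValuationSubring Qbar, A.LiesOverPrime p →
      ∀ σ ∈ A.inertiaSubgroupIn ℚ, ∀ x : EPtG E, p ^ (k + 1) • x = 0 → σ • x - x ∈ D.next C'

end Props

/-! ### the base case -/

section Base

variable {E : WeierstrassCurve ℚ} {p : ℕ} [hpF : Fact p.Prime]

/-- the image in `E(ℚ̄)` of a submodule of `E[p]`. -/
noncomputable def lineSub (N : Submodule (ZMod p) (Submodule.torsionBy ℤ (E⁄Qbar).Point p)) :
    AddSubgroup (EPtG E) :=
  N.toAddSubgroup.map (Submodule.torsionBy ℤ (E⁄Qbar).Point (p : ℤ)).subtype.toAddMonoidHom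

theorem mem_lineSub {N : Submodule (ZMod p) (Submodule.torsionBy ℤ (E⁄Qbar).Point p)}
    {x : EPtG E} :
    x ∈ lineSub N ↔ ∃ h : x ∈ Submodule.torsionBy ℤ (E⁄Qbar).Point (p : ℤ), (⟨x, h⟩ : _) ∈ N := by
  unfold lineSub
  rw [AddSubgroup.mem_map]
  constructor
  · rintro ⟨y, hy, rfl⟩
    exact ⟨y.2, hy⟩
  · rintro ⟨h, hx⟩
    exact ⟨⟨x, h⟩, hx, rfl⟩

theorem lineSub_le_tors (N : Submodule (ZMod p) (Submodule.torsionBy ℤ (E⁄Qbar).Point p)) :
    lineSub N ≤ tors (EPtG E) p := fun x hx => by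
  obtain ⟨h, -⟩ := mem_lineSub.1 hx
  exact (mem_torsionBy_iff_mem_torsG E p x).1 h

/-- **the base case**: a cofixed stable line on which `G_ℚ` acts through `cycloExp p` gives
`CofG E p 1`. -/
theorem base_of_line (hΔ : (E⁄Qbar).Δ ≠ 0) (h3 : 3 ≤ p)
    (N : Submodule (ZMod p) (Submodule.torsionBy ℤ (E⁄Qbar).Point p))
    (hstab : IsGaloisStable ℚ N) (hbot : N ≠ ⊥) (htop : N ≠ ⊤)
    (hcof : ∀ σ : GQ, ∀ x : Submodule.torsionBy ℤ (E⁄Qbar).Point p, σ • x - x ∈ N)
    (hmu : ∀ σ : GQ, ∀ x ∈ N,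
      σ • (x : (E⁄Qbar).Point) = ExtCitation.cycloExp p σ • (x : (E⁄Qbar).Point)) :
    ∃ D : CofG E p 1, D.K = lineSub N := by
  have hp : p.Prime := hpF.out
  haveI := finite_tors_powG E p hΔ h3 1
  have hfinT : Finite ↥(tors (EPtG E) p) := by
    have := finite_tors_powG E p hΔ h3 1
    rwa [pow_one] at this
  have hle := lineSub_le_tors N
  have hcardT := card_tors_pG E p hΔ h3
  -- the cardinality of the line
  have hdvd : Nat.card ↥(lineSub N) ∣ p ^ 2 := by
    rw [← hcardT]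
    exact AddSubgroup.card_dvd_of_le hle
  obtain ⟨j, hj, hcard⟩ := (Nat.dvd_prime_pow hp).1 hdvd
  have hfinK : Finite ↥(lineSub N) := Finite.of_injective
    (fun x : ↥(lineSub N) => (⟨x.1, hle x.2⟩ : ↥(tors (EPtG E) p)))
    (fun a b h => Subtype.ext (congrArg (fun z : ↥(tors (EPtG E) p) => (z : EPtG E)) h))
  have hj1 : j = 1 := by
    have h0 : j ≠ 0 := by
      rintro rfl
      rw [pow_zero] at hcard
      apply hbot
      rw [eq_bot_iff]
      intro x hx
      have hxK : (x : EPtG E) ∈ lineSub N := mem_lineSub.2 ⟨x.2, hx⟩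
      haveI : Subsingleton ↥(lineSub N) := (Nat.card_eq_one_iff_unique.1 hcard).1
      have : (⟨(x : EPtG E), hxK⟩ : ↥(lineSub N)) = 0 := Subsingleton.elim _ _
      have hx0 : (x : EPtG E) = 0 := congrArg Subtype.val this
      exact (Submodule.mem_bot _).2 (Subtype.ext hx0)
    have h2 : j ≠ 2 := by
      rintro rfl
      apply htop
      have heq : lineSub N = tors (EPtG E) p :=
        AddSubgroup.eq_of_le_of_card_ge hle (by rw [hcard, hcardT])
      rw [eq_top_iff]
      intro x _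
      have hxT : (x : EPtG E) ∈ tors (EPtG E) p := (mem_torsionBy_iff_mem_torsG E p _).1 x.2
      rw [← heq] at hxT
      obtain ⟨h, hx⟩ := mem_lineSub.1 hxT
      exact hx
    omega
  subst hj1
  rw [pow_one] at hcard
  -- a generator
  obtain ⟨x, hxN, hx0⟩ := (Submodule.ne_bot_iff N).1 hbot
  have hxK : (x : EPtG E) ∈ lineSub N := mem_lineSub.2 ⟨x.2, hxN⟩
  have hx0' : (x : EPtG E) ≠ 0 := fun h => hx0 (Subtype.ext h)
  have hpx : p • (x : EPtG E) = 0 := mem_tors.1 (hle hxK)
  have hord : addOrderOf (x : EPtG E) = p := addOrderOf_eq_prime hpx hx0'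
  have hKeq : lineSub N = AddSubgroup.zmultiples (x : EPtG E) := by
    symm
    refine AddSubgroup.eq_of_le_of_card_ge (AddSubgroup.zmultiples_le.2 hxK) ?_
    rw [hcard, Nat.card_zmultiples, hord]
  refine ⟨{ K := lineSub N
            stable := ?_
            gen := (x : EPtG E)
            K_eq := hKeq
            order := by rw [hord, pow_one]
            cofix := ?_
            hN := ?_ }, rfl⟩
  · intro σ y hy
    obtain ⟨h, hyN⟩ := mem_lineSub.1 hy
    have := hstab σ _ hyN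
    exact mem_lineSub.2 ⟨(σ • (⟨y, h⟩ : Submodule.torsionBy ℤ (E⁄Qbar).Point (p : ℤ))).2, this⟩
  · intro σ y hy
    rw [pow_one] at hy
    have hyT : y ∈ Submodule.torsionBy ℤ (E⁄Qbar).Point (p : ℤ) :=
      (mem_torsionBy_iff_mem_torsG E p y).2 (mem_tors.2 hy)
    have := hcof σ ⟨y, hyT⟩
    exact mem_lineSub.2 ⟨(σ • (⟨y, hyT⟩ : Submodule.torsionBy ℤ (E⁄Qbar).Point (p : ℤ)) -
      ⟨y, hyT⟩).2, this⟩
  · intro σ y hy _
    obtain ⟨h, hyN⟩ := mem_lineSub.1 hy
    exact hmu σ ⟨y, h⟩ hyN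

end Base

/-! ### the induction from the inputs -/

section Induction

variable {W : WeierstrassCurve ℤ} {p : ℕ} [hpF : Fact p.Prime]

/-- **`CofG(k)` for all `k ≥ 1`, with canonicity, from the named inputs.** -/
theorem cof_all_of_inputs (hΔ : ((QC W)⁄Qbar).Δ ≠ 0) (h3 : 3 ≤ p)
    (hU : UnramProp W p) (hS : SplitProp (QC W) p) (hC : CanPropagateProp W p)
    (hTo : ThetaOutProp W p) (hTp : ThetaPProp (QC W) p)
    (base : ∃ D : CofG (QC W) p 1, CanAt W D) :
    ∀ k : ℕ, 1 ≤ k → ∃ D : CofG (QC W) p k, CanAt W D := by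
  refine cof_all hΔ h3 (fun k D => CanAt W D) base (fun k D hk hD => hU k D hk hD)
    (fun k D hk _ => hS k D hk) ?_ ?_
  · intro k D hk hD C' hC' hcompl q hq
    obtain ⟨A, hA⟩ := Fermat.Agent.S13.UnramBridge.exists_liesOverPrime_qbar q hq
    refine ⟨A, hA, ?_⟩
    by_cases hqp : q = p
    · subst hqp
      exact hTp k D hk C' hC' hcompl A hA
    · exact hTo k D hk C' hC' hcompl (hC k D hk hD C' hC' hcompl) q hq hqp A hA
  · intro k D hk hD C' hC' hcompl D' h1 _
    show CanAtK W p D'.K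
    rw [h1]
    exact hC k D hk hD C' hC' hcompl

/-- the base of the induction from a cofixed line. -/
theorem base_of_inputs (hΔ : ((QC W)⁄Qbar).Δ ≠ 0) (h3 : 3 ≤ p)
    (hmu : MuLineProp (QC W) p) (hbase : BaseCanProp W p)
    (hline : HasGaloisStableCofixedLine (K := Qbar) ℚ (QC W) p) :
    ∃ D : CofG (QC W) p 1, CanAt W D := by
  obtain ⟨N, hstab, hbot, htop, hcof⟩ := hline
  obtain ⟨D, hD⟩ := base_of_line hΔ h3 N hstab hbot htop hcof (hmu N hstab hbot htop hcof)
  refine ⟨D, ?_⟩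
  intro ℓ hℓ hℓp hℓΔ A hA x hx
  rw [hD] at hx
  obtain ⟨h, hxN⟩ := mem_lineSub.1 hx
  exact hbase N hstab hbot htop hcof ℓ hℓ hℓp hℓΔ A hA ⟨x, h⟩ hxN

end Induction

/-! ### transport along an equality of curves -/

section Transport

variable {E E' : WeierstrassCurve ℚ} {p : ℕ} [hpF : Fact p.Prime]

theorem MuLineProp.congr (h : E = E') (H : MuLineProp E p) : MuLineProp E' p := by
  subst h; exact H

theorem SplitProp.congr (h : E = E') (H : SplitProp E p) : SplitProp E' p := by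
  subst h; exact H

theorem ThetaPProp.congr (h : E = E') (H : ThetaPProp E p) : ThetaPProp E' p := by
  subst h; exact H

theorem hasLine_congr (h : E = E') (H : HasGaloisStableCofixedLine (K := Qbar) ℚ E p) :
    HasGaloisStableCofixedLine (K := Qbar) ℚ E' p := by
  subst h; exact H

end Transport

/-! ### S12 from the inputs -/

/-- the end step, for a curve equal to the Frey curve. -/
theorem false_of_forall_cof (P : FreyPackage) (E : WeierstrassCurve ℚ) (hE : E = P.freyCurve)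
    (h : ∀ k : ℕ, 1 ≤ k → Nonempty (CofG E P.p k)) : False := by
  subst hE
  exact Fermat.Agent.MS.END.CofEnd8.not_forall_cof P (forall_set_of_forall_cof h)

/-- **S12 from the named inputs** (`W := P.freyCurveInt`; every input may use the cofixed line). -/
theorem s12_of_inputs (P : FreyPackage) (hp : 17 ≤ P.p)
    (hmu : HasGaloisStableCofixedLine (K := Qbar) ℚ P.freyCurve P.p → MuLineProp P.freyCurve P.p)
    (hbase : HasGaloisStableCofixedLine (K := Qbar) ℚ P.freyCurve P.p →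
      BaseCanProp P.freyCurveInt P.p)
    (hU : HasGaloisStableCofixedLine (K := Qbar) ℚ P.freyCurve P.p → UnramProp P.freyCurveInt P.p)
    (hS : HasGaloisStableCofixedLine (K := Qbar) ℚ P.freyCurve P.p → SplitProp P.freyCurve P.p)
    (hC : HasGaloisStableCofixedLine (K := Qbar) ℚ P.freyCurve P.p →
      CanPropagateProp P.freyCurveInt P.p)
    (hTo : HasGaloisStableCofixedLine (K := Qbar) ℚ P.freyCurve P.p →
      ThetaOutProp P.freyCurveInt P.p)
    (hTp : HasGaloisStableCofixedLine (K := Qbar) ℚ P.freyCurve P.p →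
      ThetaPProp P.freyCurve P.p) :
    ¬ HasGaloisStableCofixedLine (K := Qbar) ℚ P.freyCurve P.p := by
  intro hline
  have e : QC P.freyCurveInt = P.freyCurve := Fermat.Agent.MS.LOC.FreyInt2.map_freyCurveInt P
  have h3 : 3 ≤ P.p := by omega
  have hΔ : ((QC P.freyCurveInt)⁄Qbar).Δ ≠ 0 := by
    rw [e]
    exact Fermat.Agent.S13.FreyDelta.freyCurve_baseChange_Δ_ne_zero P Qbar
  have hall := cof_all_of_inputs (W := P.freyCurveInt) (p := P.p) hΔ h3 (hU hline)
    ((hS hline).congr e.symm) (hC hline) (hTo hline) ((hTp hline).congr e.symm)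
    (base_of_inputs hΔ h3 ((hmu hline).congr e.symm) (hbase hline) (hasLine_congr e.symm hline))
  exact false_of_forall_cof P (QC P.freyCurveInt) e (fun k hk => by
    obtain ⟨D, -⟩ := hall k hk
    exact ⟨D⟩)

end Fermat.Agent.MS.STEP.Assemble8
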