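/-
Programme MS (S12), area STEP (helper8): **final wiring of S12** — the named inputs of
`Assemble8.s12_of_inputs` discharged from the owners' theorems.

* `muLineProp`  : (G2) from `MS/GLOB/CycloLine6.cofixed_line_cyclo` (helper6);
* `splitProp`, `thetaPProp` : (L2), (L3 at `p`) from `MS/LOCP/SplitAtP2` (helper2).
-/
import Mathlib
import Fermat.Agent.MS.STEP.Assemble8
import Fermat.Agent.MS.GLOB.CycloLine6
import Fermat.Agent.MS.LOCP.SplitAtP2

set_option autoImplicit false
set_option linter.unusedSectionVars false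
set_option linter.unusedVariables false
set_option linter.style.longLine false

open WeierstrassCurve WeierstrassCurve.Affine WeierstrassCurve.Affine.Point

namespace Fermat.Agent.MS.STEP.S12Wire8

open Fermat.Agent.MS.STEP.StepAlg8 Fermat.Agent.MS.STEP.CofStep8 Fermat.Agent.MS.STEP.Assemble8

local notation "Qbar" => AlgebraicClosure ℚ
local notation "GQ" => (AlgebraicClosure ℚ ≃ₐ[ℚ] AlgebraicClosure ℚ)

variable (P : FreyPackage)

/-- **(G2)** (helper6). -/
theorem muLineProp : MuLineProp P.freyCurve P.p := by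
  intro N hN hbot htop hcof σ x hx
  have h := Fermat.Agent.MS.GLOB.CycloLine6.cofixed_line_cyclo (P := P) hN hbot htop hcof σ hx
  rw [Nat.cast_smul_eq_nsmul] at h
  have h2 := congrArg Subtype.val h
  exact h2

/-- **(L2)** (helper2). -/
theorem splitProp (hline : HasGaloisStableCofixedLine (K := Qbar) ℚ P.freyCurve P.p) :
    SplitProp P.freyCurve P.p := fun k D hk =>
  Fermat.Agent.MS.LOCP.SplitAtP2.splitAt' D hk
    (Fermat.Agent.MS.LOCP.SplitAtP2.hasLine_of_cofixed hline)

/-- **(L3) at `p`** (helper2). -/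
theorem thetaPProp (hline : HasGaloisStableCofixedLine (K := Qbar) ℚ P.freyCurve P.p) :
    ThetaPProp P.freyCurve P.p := fun k D hk C' hC' hcompl A hA =>
  Fermat.Agent.MS.LOCP.SplitAtP2.thetaLocal_at_p' D hk
    (Fermat.Agent.MS.LOCP.SplitAtP2.hasLine_of_cofixed hline) hC' hcompl hA

/-- **S12 from the four inputs still in progress** (helper1: `hbase`, `hC`; helper5: `hU`, `hTo`). -/
theorem s12_of_four (hp : 17 ≤ P.p)
    (hbase : HasGaloisStableCofixedLine (K := Qbar) ℚ P.freyCurve P.p →
      BaseCanProp P.freyCurveInt P.p)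
    (hU : HasGaloisStableCofixedLine (K := Qbar) ℚ P.freyCurve P.p → UnramProp P.freyCurveInt P.p)
    (hC : HasGaloisStableCofixedLine (K := Qbar) ℚ P.freyCurve P.p →
      CanPropagateProp P.freyCurveInt P.p)
    (hTo : HasGaloisStableCofixedLine (K := Qbar) ℚ P.freyCurve P.p →
      ThetaOutProp P.freyCurveInt P.p) :
    ¬ HasGaloisStableCofixedLine (K := Qbar) ℚ P.freyCurve P.p :=
  s12_of_inputs P hp (fun _ => muLineProp P) hbase hU (splitProp P) hC hTo (thetaPProp P)

end Fermat.Agent.MS.STEP.S12Wire8
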